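import Fermat.Agent.S19.KM.Geom.Defs

/-!
# S19 / KM route, block [G], section Gb (part 1): constant field extensions, the easy lemmas

* `isCompositum_of_adjoin` : if `K / K₀` is algebraic, the ring generated by `K` and `Φ(F₀)` is a
  field;
* `IsLinDisj.linearIndependent` : the other form of linear disjointness;
* `map_mem_LL` : `Φ` maps `LL K₀ x i` into `LL K (Φ x) i`;
* `finite_LL_of_baseChange` : finiteness descends.

Mathlib only.
-/

set_option autoImplicit false

noncomputable section

namespace Fermat.Agent.S19.KM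

open Module Submodule IntermediateField

variable {K₀ K F₀ F : Type*} [Field K₀] [Field K] [Field F₀] [Field F]
  [Algebra K₀ K] [Algebra K₀ F₀] [Algebra K F]

/-! ### the compositum -/

/-- the predicate "is a sum `∑ c j • Φ (g j)`" -/
private def IsSumForm (K : Type*) {F₀ F : Type*} [Field K] [Field F₀] [Field F] [Algebra K F]
    (Φ : F₀ →+* F) (f : F) : Prop :=
  ∃ (m : ℕ) (c : Fin m → K) (g : Fin m → F₀), f = ∑ j, c j • Φ (g j)

private theorem IsSumForm.zero (Φ : F₀ →+* F) : IsSumForm K Φ 0 :=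
  ⟨0, Fin.elim0, Fin.elim0, by simp⟩

private theorem IsSumForm.single (Φ : F₀ →+* F) (c : K) (g : F₀) : IsSumForm K Φ (c • Φ g) :=
  ⟨1, fun _ => c, fun _ => g, by simp⟩

private theorem IsSumForm.add {Φ : F₀ →+* F} {f f' : F} (hf : IsSumForm K Φ f)
    (hf' : IsSumForm K Φ f') : IsSumForm K Φ (f + f') := by
  obtain ⟨m, c, g, rfl⟩ := hf
  obtain ⟨m', c', g', rfl⟩ := hf'
  refine ⟨m + m', Fin.append c c', Fin.append g g', ?_⟩
  rw [Fin.sum_univ_add]
  simp only [Fin.append_left, Fin.append_right]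

private theorem IsSumForm.mul_left {Φ : F₀ →+* F} {f : F} (a : F₀) (hf : IsSumForm K Φ f) :
    IsSumForm K Φ (Φ a * f) := by
  obtain ⟨m, c, g, rfl⟩ := hf
  refine ⟨m, c, fun j => a * g j, ?_⟩
  rw [Finset.mul_sum]
  refine Finset.sum_congr rfl fun j _ => ?_
  rw [map_mul, mul_smul_comm]

/-- if `K / K₀` is algebraic, the ring generated by `K` and `Φ(F₀)` is a field -/
theorem isCompositum_of_adjoin [Algebra.IsAlgebraic K₀ K] (Φ : F₀ →+* F)
    (hΦ : ∀ a : K₀, Φ (algebraMap K₀ F₀ a) = algebraMap K F (algebraMap K₀ K a))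
    (h : IntermediateField.adjoin K (Set.range Φ) = ⊤) : IsCompositum K Φ := by
  let _ : Algebra F₀ F := Φ.toAlgebra
  have hamap : ∀ a : F₀, algebraMap F₀ F a = Φ a := fun _ => rfl
  set S : Set F := Set.range (algebraMap K F) with hS
  -- every element of `S` is algebraic over `F₀`
  have halg : ∀ s ∈ S, IsAlgebraic F₀ s := by
    rintro _ ⟨c, rfl⟩
    obtain ⟨p, hp0, hp⟩ := Algebra.IsAlgebraic.isAlgebraic (R := K₀) c
    refine ⟨p.map (algebraMap K₀ F₀), ?_, ?_⟩
    · exact (Polynomial.map_ne_zero_iff (algebraMap K₀ F₀).injective).2 hp0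
    · rw [Polynomial.aeval_def, Polynomial.eval₂_map]
      have hcomp : (algebraMap F₀ F).comp (algebraMap K₀ F₀)
          = (algebraMap K F).comp (algebraMap K₀ K) := by
        ext a
        exact hΦ a
      rw [hcomp, ← Polynomial.hom_eval₂, ← Polynomial.aeval_def, hp, map_zero]
  have hsub : (IntermediateField.adjoin F₀ S).toSubalgebra = Algebra.adjoin F₀ S :=
    IntermediateField.adjoin_toSubalgebra_of_isAlgebraic halg
  -- the field `F₀(S)` contains `K` and `Φ(F₀)`
  let L : IntermediateField K F :=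
    (IntermediateField.adjoin F₀ S).toSubfield.toIntermediateField (fun c =>
      IntermediateField.subset_adjoin F₀ S ⟨c, rfl⟩)
  have hL : (⊤ : IntermediateField K F) ≤ L := by
    rw [← h, IntermediateField.adjoin_le_iff]
    rintro _ ⟨a, rfl⟩
    exact (IntermediateField.adjoin F₀ S).algebraMap_mem a
  have hmem : ∀ f : F, f ∈ Algebra.adjoin F₀ S := by
    intro f
    have h1 : f ∈ L := hL trivial
    have h2 : f ∈ IntermediateField.adjoin F₀ S := h1
    rw [← hsub]
    exact h2
  -- `F₀[S]` is spanned by `S`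
  have hclos : (Submonoid.closure S : Set F) = S := by
    have : S = (MonoidHom.mrange (algebraMap K F : K →* F) : Set F) := by
      ext; simp [hS]
    rw [this, Submonoid.closure_eq]
  intro f
  have h3 : f ∈ Submodule.span F₀ S := by
    have := hmem f
    rw [← Subalgebra.mem_toSubmodule, Algebra.adjoin_eq_span, hclos] at this
    exact this
  change IsSumForm K Φ f
  induction h3 using Submodule.span_induction with
  | mem s hs =>
    obtain ⟨c, rfl⟩ := hs
    have := IsSumForm.single (K := K) Φ c 1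
    rwa [map_one, Algebra.smul_def, mul_one] at this
  | zero => exact IsSumForm.zero Φ
  | add s t _ _ hs ht => exact hs.add ht
  | smul a s _ hs =>
    rw [Algebra.smul_def, hamap]
    exact hs.mul_left a

/-! ### linear disjointness -/

private theorem smul_map_smul {Φ : F₀ →+* F}
    (hΦ : ∀ a : K₀, Φ (algebraMap K₀ F₀ a) = algebraMap K F (algebraMap K₀ K a))
    (c : K) (r : K₀) (w : F₀) : c • Φ (r • w) = (r • c) • Φ w := by
  rw [Algebra.smul_def r w, map_mul, hΦ, Algebra.smul_def r c, Algebra.smul_def, Algebra.smul_def,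
    map_mul]
  ring

private theorem IsLinDisj.linearIndependent_fintype {Φ : F₀ →+* F}
    (hΦ : ∀ a : K₀, Φ (algebraMap K₀ F₀ a) = algebraMap K F (algebraMap K₀ K a))
    (h : IsLinDisj K₀ K Φ) {ι : Type*} [Fintype ι] {w : ι → F₀} (hw : LinearIndependent K₀ w) :
    LinearIndependent K (fun j => Φ (w j)) := by
  classical
  rw [Fintype.linearIndependent_iff]
  intro a ha
  -- the `K₀`-span of the coefficients
  let V : Submodule K₀ K := Submodule.span K₀ (Set.range a)
  have hVfin : Module.Finite K₀ V := Module.Finite.span_of_finite K₀ (Set.finite_range a)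
  let b := Module.finBasis K₀ V
  let c : Fin (finrank K₀ V) → K := fun t => (b t : K)
  have hc : LinearIndependent K₀ c :=
    b.linearIndependent.map' V.subtype (Submodule.ker_subtype V)
  have haV : ∀ i, a i ∈ V := fun i => Submodule.subset_span ⟨i, rfl⟩
  let r : ι → Fin (finrank K₀ V) → K₀ := fun i t => b.repr ⟨a i, haV i⟩ t
  have hr : ∀ i, a i = ∑ t, r i t • c t := by
    intro i
    have := congrArg (Subtype.val) (b.sum_repr ⟨a i, haV i⟩)
    simp only [Submodule.coe_sum, Submodule.coe_smul] at this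
    exact this.symm
  let g : Fin (finrank K₀ V) → F₀ := fun t => ∑ i, r i t • w i
  have hsum : ∑ t, c t • Φ (g t) = 0 := by
    rw [← ha]
    simp only [g, map_sum, Finset.smul_sum]
    rw [Finset.sum_comm]
    refine Finset.sum_congr rfl fun i _ => ?_
    rw [hr i, Finset.sum_smul]
    refine Finset.sum_congr rfl fun t _ => ?_
    exact smul_map_smul hΦ _ _ _
  have hg := h _ c g hc hsum
  intro i
  rw [hr i]
  refine Finset.sum_eq_zero fun t _ => ?_
  have := (Fintype.linearIndependent_iff.1 hw) (fun i => r i t) (hg t) i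
  rw [this, zero_smul]

/-- the other form of linear disjointness -/
theorem IsLinDisj.linearIndependent {Φ : F₀ →+* F}
    (hΦ : ∀ a : K₀, Φ (algebraMap K₀ F₀ a) = algebraMap K F (algebraMap K₀ K a))
    (h : IsLinDisj K₀ K Φ) {ι : Type*} {w : ι → F₀} (hw : LinearIndependent K₀ w) :
    LinearIndependent K (fun j => Φ (w j)) := by
  rw [linearIndependent_iff_finset_linearIndependent]
  intro s
  exact IsLinDisj.linearIndependent_fintype hΦ h (w := w ∘ (Subtype.val : s → ι))
    (hw.comp _ Subtype.val_injective)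

/-! ### transport of integrality -/

private theorem map_mem_adjoin (Φ : F₀ →+* F)
    (hΦ : ∀ a : K₀, Φ (algebraMap K₀ F₀ a) = algebraMap K F (algebraMap K₀ K a))
    {y z : F₀} (hz : z ∈ Algebra.adjoin K₀ {y}) : Φ z ∈ Algebra.adjoin K {Φ y} := by
  induction hz using Algebra.adjoin_induction with
  | mem s hs =>
    rw [Set.mem_singleton_iff] at hs
    subst hs
    exact Algebra.subset_adjoin rfl
  | algebraMap a =>
    rw [hΦ]
    exact Subalgebra.algebraMap_mem _ _
  | add s t _ _ hs ht =>
    rw [map_add]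
    exact add_mem hs ht
  | mul s t _ _ hs ht =>
    rw [map_mul]
    exact mul_mem hs ht

/-- `Φ` transports integrality over `K₀[y]` to integrality over `K[Φ y]` -/
theorem isIntegral_adjoin_map (Φ : F₀ →+* F)
    (hΦ : ∀ a : K₀, Φ (algebraMap K₀ F₀ a) = algebraMap K F (algebraMap K₀ K a))
    {y z : F₀} (hz : IsIntegral (Algebra.adjoin K₀ {y}) z) :
    IsIntegral (Algebra.adjoin K {Φ y}) (Φ z) := by
  let φ : Algebra.adjoin K₀ {y} →+* Algebra.adjoin K {Φ y} :=
    (Φ.comp (Algebra.adjoin K₀ {y}).val.toRingHom).codRestrict (Algebra.adjoin K {Φ y})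
      (fun s => map_mem_adjoin Φ hΦ s.2)
  refine IsIntegral.map_of_comp_eq φ Φ ?_ hz
  ext s
  rfl

theorem map_mem_LL (Φ : F₀ →+* F)
    (hΦ : ∀ a : K₀, Φ (algebraMap K₀ F₀ a) = algebraMap K F (algebraMap K₀ K a))
    {x f : F₀} {i : ℕ} (hf : f ∈ LL K₀ x i) : Φ f ∈ LL K (Φ x) i := by
  rw [mem_LL] at hf ⊢
  refine ⟨isIntegral_adjoin_map Φ hΦ hf.1, ?_⟩
  have := isIntegral_adjoin_map (K := K) Φ hΦ hf.2
  rwa [map_mul, map_pow, map_inv₀] at this

/-! ### descent of finiteness -/

theorem finite_LL_of_baseChange (Φ : F₀ →+* F)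
    (hΦ : ∀ a : K₀, Φ (algebraMap K₀ F₀ a) = algebraMap K F (algebraMap K₀ K a))
    (hd : IsLinDisj K₀ K Φ) (x : F₀) (i : ℕ) [Module.Finite K (LL K (Φ x) i)] :
    Module.Finite K₀ (LL K₀ x i) := by
  have hrank : Module.rank K₀ (LL K₀ x i) ≤ (finrank K (LL K (Φ x) i) : ℕ) := by
    refine rank_le fun s hs => ?_
    -- the family in `F₀`
    have h1 : LinearIndependent K₀ (fun j : s => ((j : LL K₀ x i) : F₀)) :=
      hs.map' (LL K₀ x i).subtype (Submodule.ker_subtype _)
    have h2 : LinearIndependent K (fun j : s => Φ ((j : LL K₀ x i) : F₀)) :=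
      hd.linearIndependent hΦ h1
    let v : s → LL K (Φ x) i := fun j => ⟨Φ ((j : LL K₀ x i) : F₀), map_mem_LL Φ hΦ (j : LL K₀ x i).2⟩
    have h3 : LinearIndependent K v := by
      refine LinearIndependent.of_comp (LL K (Φ x) i).subtype ?_
      exact h2
    have := h3.fintype_card_le_finrank
    simpa using this
  rw [← Module.rank_lt_aleph0_iff]
  exact lt_of_le_of_lt hrank (Cardinal.natCast_lt_aleph0)

end Fermat.Agent.S19.KM
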