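import Fermat.Agent.S19.KM.Geom.Defs

/-!
# S19 / KM route, block [G], section Gb, part 2: descent of integrality (trace argument)

`exists_decomp_isIntegral` and `LL_baseChange`.  Mathlib only.
(architect helper19; proofs helper44.)
-/

set_option autoImplicit false

noncomputable section

namespace Fermat.Agent.S19.KM

open Module Submodule IntermediateField

/-! ### traces and extension of the base field -/

section Trace

variable {K₀ K₁ F₀ F₁ ι : Type*} [Field K₀] [Field K₁] [Field F₀] [Field F₁] [Fintype ι]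
  [Algebra K₀ K₁] [Algebra K₀ F₀] [Algebra F₀ F₁]

theorem DescentTrace.repr_map (b : Basis ι K₀ K₁) (B : Basis ι F₀ F₁) (φ : K₁ →+* F₁)
    (hb : ∀ t, φ (b t) = B t)
    (hφ : ∀ a : K₀, φ (algebraMap K₀ K₁ a) = algebraMap F₀ F₁ (algebraMap K₀ F₀ a))
    (w : K₁) (i : ι) : B.repr (φ w) i = algebraMap K₀ F₀ (b.repr w i) := by
  have h : φ w = ∑ t, algebraMap K₀ F₀ (b.repr w t) • B t := by
    conv_lhs => rw [← b.sum_repr w]
    rw [map_sum]
    refine Finset.sum_congr rfl fun t _ => ?_
    rw [Algebra.smul_def, map_mul, hφ, hb, Algebra.smul_def]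
  rw [h, B.repr_sum_self]

theorem DescentTrace.trace_map (b : Basis ι K₀ K₁) (B : Basis ι F₀ F₁) (φ : K₁ →+* F₁)
    (hb : ∀ t, φ (b t) = B t)
    (hφ : ∀ a : K₀, φ (algebraMap K₀ K₁ a) = algebraMap F₀ F₁ (algebraMap K₀ F₀ a))
    (a : K₁) : Algebra.trace F₀ F₁ (φ a) = algebraMap K₀ F₀ (Algebra.trace K₀ K₁ a) := by
  classical
  rw [Algebra.trace_eq_matrix_trace B, Algebra.trace_eq_matrix_trace b, Matrix.trace,
    Matrix.trace, map_sum]
  refine Finset.sum_congr rfl fun i _ => ?_
  rw [Matrix.diag_apply, Matrix.diag_apply, Algebra.leftMulMatrix_eq_repr_mul,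
    Algebra.leftMulMatrix_eq_repr_mul, ← hb, ← map_mul, DescentTrace.repr_map b B φ hb hφ]

end Trace

/-! ### transport of integrality -/

section Transport

variable {K₀ K F₀ F : Type*} [Field K₀] [Field K] [Field F₀] [Field F]
  [Algebra K₀ K] [Algebra K₀ F₀] [Algebra K F]

theorem DescentTrace.map_mem_adjoin (Φ : F₀ →+* F)
    (hΦ : ∀ a : K₀, Φ (algebraMap K₀ F₀ a) = algebraMap K F (algebraMap K₀ K a))
    {x a : F₀} (ha : a ∈ Algebra.adjoin K₀ {x}) : Φ a ∈ Algebra.adjoin K {Φ x} := by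
  induction ha using Algebra.adjoin_induction with
  | mem y hy =>
    rw [Set.mem_singleton_iff] at hy
    rw [hy]
    exact Algebra.self_mem_adjoin_singleton K _
  | algebraMap r =>
    rw [hΦ]
    exact Subalgebra.algebraMap_mem _ _
  | add y z _ _ hy hz =>
    rw [map_add]
    exact add_mem hy hz
  | mul y z _ _ hy hz =>
    rw [map_mul]
    exact mul_mem hy hz

theorem DescentTrace.map_isIntegral (Φ : F₀ →+* F)
    (hΦ : ∀ a : K₀, Φ (algebraMap K₀ F₀ a) = algebraMap K F (algebraMap K₀ K a))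
    {x f : F₀} (hf : IsIntegral (Algebra.adjoin K₀ {x}) f) :
    IsIntegral (Algebra.adjoin K {Φ x}) (Φ f) := by
  let φ : Algebra.adjoin K₀ {x} →+* Algebra.adjoin K {Φ x} :=
    (Φ.comp (Algebra.adjoin K₀ {x}).val.toRingHom).codRestrict (Algebra.adjoin K {Φ x})
      fun a => DescentTrace.map_mem_adjoin Φ hΦ a.2
  exact IsIntegral.map_of_comp_eq φ Φ (by ext a; rfl) hf

theorem DescentTrace.map_mem_LL (Φ : F₀ →+* F)
    (hΦ : ∀ a : K₀, Φ (algebraMap K₀ F₀ a) = algebraMap K F (algebraMap K₀ K a))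
    {x f : F₀} {i : ℕ} (hf : f ∈ LL K₀ x i) : Φ f ∈ LL K (Φ x) i := by
  rw [mem_LL] at hf ⊢
  refine ⟨DescentTrace.map_isIntegral Φ hΦ hf.1, ?_⟩
  have h := DescentTrace.map_isIntegral (K := K) Φ hΦ hf.2
  rwa [map_mul, map_pow, map_inv₀] at h

end Transport

section Core

variable {K₀ K F₀ F : Type*} [Field K₀] [Field K] [Field F₀] [Field F]
  [Algebra K₀ K] [Algebra K₀ F₀] [Algebra K F] [Algebra F₀ F] [Algebra K₀ F]
  [IsScalarTower K₀ K F] [IsScalarTower K₀ F₀ F]

/-- `K[y]` is integral over `K₀[y]` -/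
theorem DescentTrace.isIntegral_of_adjoin [Algebra.IsAlgebraic K₀ K] (y : F₀) {u : F}
    (hu : IsIntegral (Algebra.adjoin K {algebraMap F₀ F y}) u) :
    IsIntegral (Algebra.adjoin K₀ {y}) u := by
  have hsub : ∀ a ∈ Algebra.adjoin K {algebraMap F₀ F y},
      a ∈ integralClosure (Algebra.adjoin K₀ {y}) F := by
    intro a ha
    induction ha using Algebra.adjoin_induction with
    | mem x hx =>
      rw [Set.mem_singleton_iff] at hx
      rw [hx]
      exact isIntegral_algebraMap (R := Algebra.adjoin K₀ {y}) (A := F)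
        (x := ⟨y, Algebra.self_mem_adjoin_singleton K₀ y⟩)
    | algebraMap r =>
      have h1 : IsIntegral K₀ r := (Algebra.IsAlgebraic.isAlgebraic r).isIntegral
      have h2 : IsIntegral K₀ (algebraMap K F r) := h1.map (IsScalarTower.toAlgHom K₀ K F)
      exact h2.tower_top
    | add x z _ _ hx hz => exact add_mem hx hz
    | mul x z _ _ hx hz => exact mul_mem hx hz
  let φ : Algebra.adjoin K {algebraMap F₀ F y} →+* integralClosure (Algebra.adjoin K₀ {y}) F :=
    ((Algebra.adjoin K {algebraMap F₀ F y}).val.toRingHom).codRestrict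
      (integralClosure (Algebra.adjoin K₀ {y}) F) fun a => hsub a a.2
  have h3 : IsIntegral (integralClosure (Algebra.adjoin K₀ {y}) F) u :=
    IsIntegral.map_of_comp_eq φ (RingHom.id F) (by ext a; rfl) hu
  exact isIntegral_trans u h3

/-- the core of the trace argument -/
theorem DescentTrace.core [Algebra.IsSeparable K₀ K]
    (hd : IsLinDisj K₀ K (algebraMap F₀ F))
    (K₁ : IntermediateField K₀ K) [FiniteDimensional K₀ K₁] {r : ℕ} (b : Basis (Fin r) K₀ K₁)
    (g : Fin r → F₀) (y z : F₀)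
    (h : IsIntegral (Algebra.adjoin K {algebraMap F₀ F y})
      (algebraMap F₀ F z * ∑ t, ((b t : K₁) : K) • algebraMap F₀ F (g t))) (s : Fin r) :
    IsIntegral (Algebra.adjoin K₀ {y}) (z * g s) := by
  classical
  set Bv : Fin r → F := fun t => algebraMap K F ((b t : K₁) : K) with hBv
  -- independence
  have hli : LinearIndependent F₀ Bv := by
    rw [Fintype.linearIndependent_iff]
    intro c hc
    refine hd r (fun t => ((b t : K₁) : K)) c ?_ ?_
    · exact b.linearIndependent.map' K₁.val.toLinearMap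
        (LinearMap.ker_eq_bot.2 Subtype.val_injective)
    · rw [← hc]
      refine Finset.sum_congr rfl fun t _ => ?_
      rw [Algebra.smul_def, Algebra.smul_def, mul_comm]
  -- expansion
  have L1 : ∀ w : K₁, algebraMap K F (w : K) = ∑ t, algebraMap K₀ F₀ (b.repr w t) • Bv t := by
    intro w
    conv_lhs => rw [← b.sum_repr w]
    rw [AddSubmonoidClass.coe_finsetSum, map_sum]
    refine Finset.sum_congr rfl fun t _ => ?_
    rw [IntermediateField.coe_smul, Algebra.smul_def, map_mul, Algebra.smul_def,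
      ← IsScalarTower.algebraMap_apply, ← IsScalarTower.algebraMap_apply]
  have L2 : ∀ w : K₁, algebraMap K F (w : K) ∈ span F₀ (Set.range Bv) := by
    intro w
    rw [L1 w]
    exact sum_mem fun t _ => smul_mem _ _ (subset_span ⟨t, rfl⟩)
  -- the span is a subalgebra
  have h1V : (1 : F) ∈ span F₀ (Set.range Bv) := by
    have := L2 1
    rwa [IntermediateField.coe_one, map_one] at this
  have hmulV : ∀ p q : F, p ∈ span F₀ (Set.range Bv) → q ∈ span F₀ (Set.range Bv) →
      p * q ∈ span F₀ (Set.range Bv) := by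
    intro p q hp hq
    have h2 : p * q ∈ span F₀ (Set.range Bv) * span F₀ (Set.range Bv) :=
      Submodule.mul_mem_mul hp hq
    rw [Submodule.span_mul_span] at h2
    refine span_le.2 ?_ h2
    rintro _ ⟨_, ⟨t, rfl⟩, _, ⟨t', rfl⟩, rfl⟩
    have := L2 (b t * b t')
    rwa [IntermediateField.coe_mul, map_mul] at this
  -- the field `F₁`
  have halg : ∀ p ∈ Set.range Bv, IsAlgebraic F₀ p := by
    rintro _ ⟨t, rfl⟩
    have h2 : IsAlgebraic K₀ ((b t : K₁) : K) := Algebra.IsAlgebraic.isAlgebraic _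
    have h3 : IsAlgebraic K₀ (algebraMap K F ((b t : K₁) : K)) :=
      h2.algHom (IsScalarTower.toAlgHom K₀ K F)
    exact h3.tower_top F₀
  set F₁ : IntermediateField F₀ F := IntermediateField.adjoin F₀ (Set.range Bv) with hF₁
  have hF₁V : ∀ p ∈ F₁, p ∈ span F₀ (Set.range Bv) := by
    intro p hp
    rw [← IntermediateField.mem_toSubalgebra, hF₁,
      IntermediateField.adjoin_toSubalgebra_of_isAlgebraic halg] at hp
    have h2 : Algebra.adjoin F₀ (Set.range Bv) ≤
        (span F₀ (Set.range Bv)).toSubalgebra h1V hmulV :=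
      Algebra.adjoin_le fun q hq => subset_span hq
    exact h2 hp
  have hBvF₁ : ∀ t, Bv t ∈ F₁ := fun t => IntermediateField.subset_adjoin F₀ _ ⟨t, rfl⟩
  let B : Basis (Fin r) F₀ F₁ := Basis.mk (v := fun t => (⟨Bv t, hBvF₁ t⟩ : F₁))
    (LinearIndependent.of_comp F₁.val.toLinearMap hli) (by
      rintro ⟨p, hp⟩ -
      have h2 := hF₁V p hp
      have h3 : Set.range Bv = F₁.val.toLinearMap '' Set.range fun t => (⟨Bv t, hBvF₁ t⟩ : F₁) := by
        rw [← Set.range_comp]
        rfl
      rw [h3, span_image] at h2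
      obtain ⟨q, hq, hqp⟩ := h2
      have h4 : q = ⟨p, hp⟩ := Subtype.ext hqp
      rwa [← h4])
  have hB : ∀ t, ((B t : F₁) : F) = Bv t := by
    intro t
    rw [Basis.mk_apply]
  have hKF₁ : ∀ w : K₁, algebraMap K F (w : K) ∈ F₁ := by
    intro w
    rw [L1 w]
    exact sum_mem fun t _ => F₁.smul_mem (hBvF₁ t)
  let φ : K₁ →+* F₁ := ((algebraMap K F).comp K₁.val.toRingHom).codRestrict F₁ hKF₁
  have hφ : ∀ w : K₁, ((φ w : F₁) : F) = algebraMap K F (w : K) := fun w => rfl
  have hφb : ∀ t, φ (b t) = B t := fun t => Subtype.ext (by rw [hφ, hB])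
  have hφa : ∀ a : K₀, φ (algebraMap K₀ K₁ a) = algebraMap F₀ F₁ (algebraMap K₀ F₀ a) := by
    intro a
    apply Subtype.ext
    rw [hφ]
    change algebraMap K F (algebraMap K₀ K a) = algebraMap F₀ F (algebraMap K₀ F₀ a)
    rw [← IsScalarTower.algebraMap_apply, ← IsScalarTower.algebraMap_apply]
  have : FiniteDimensional F₀ F₁ := Module.Finite.of_basis B
  have htr := DescentTrace.trace_map b B φ hφb hφa
  -- the dual basis
  let d := (Algebra.traceForm K₀ K₁).dualBasis (traceForm_nondegenerate K₀ K₁) b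
  have hdual : ∀ t, Algebra.trace K₀ K₁ (d s * b t) = if t = s then 1 else 0 := fun t => by
    have := LinearMap.BilinForm.apply_dualBasis_left (traceForm_nondegenerate K₀ K₁) b s t
    rwa [Algebra.traceForm_apply] at this
  -- the element
  let U : F₁ := ∑ t, φ (b t) * algebraMap F₀ F₁ (z * g t)
  have hU : (U : F) = algebraMap F₀ F z * ∑ t, ((b t : K₁) : K) • algebraMap F₀ F (g t) := by
    rw [AddSubmonoidClass.coe_finsetSum, Finset.mul_sum]
    refine Finset.sum_congr rfl fun t _ => ?_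
    rw [IntermediateField.coe_mul, hφ, Algebra.smul_def]
    change _ * algebraMap F₀ F (z * g t) = _
    rw [map_mul]
    ring
  have hint : IsIntegral (Algebra.adjoin K₀ {y}) (φ (d s) * U) := by
    rw [← isIntegral_algebraMap_iff (algebraMap F₁ F).injective]
    change IsIntegral (Algebra.adjoin K₀ {y}) (((φ (d s) * U : F₁)) : F)
    rw [IntermediateField.coe_mul, hφ, hU]
    refine IsIntegral.mul ?_ (DescentTrace.isIntegral_of_adjoin y h)
    have h1 : IsIntegral K₀ ((d s : K₁) : K) := (Algebra.IsAlgebraic.isAlgebraic _).isIntegral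
    have h2 : IsIntegral K₀ (algebraMap K F ((d s : K₁) : K)) :=
      h1.map (IsScalarTower.toAlgHom K₀ K F)
    exact h2.tower_top
  have htrace : Algebra.trace F₀ F₁ (φ (d s) * U) = z * g s := by
    rw [Finset.mul_sum, map_sum, Finset.sum_eq_single s]
    · rw [← mul_assoc, ← map_mul, mul_comm, ← Algebra.smul_def, map_smul, htr, hdual, if_pos rfl,
        map_one, smul_eq_mul, mul_one]
    · intro t _ hts
      rw [← mul_assoc, ← map_mul, mul_comm, ← Algebra.smul_def, map_smul, htr, hdual, if_neg hts,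
        map_zero, smul_zero]
    · intro hs
      exact absurd (Finset.mem_univ s) hs
  rw [← htrace]
  exact Algebra.isIntegral_trace hint

end Core

/-! ### the statements of section Gb -/

section Gb

variable {K₀ K F₀ F : Type*} [Field K₀] [Field K] [Field F₀] [Field F]
  [Algebra K₀ K] [Algebra K₀ F₀] [Algebra K F]

/-- **descent of integrality** (trace argument) -/
theorem exists_decomp_isIntegral [Algebra.IsSeparable K₀ K] (Φ : F₀ →+* F)
    (hΦ : ∀ a : K₀, Φ (algebraMap K₀ F₀ a) = algebraMap K F (algebraMap K₀ K a))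
    (hc : IsCompositum K Φ) (hd : IsLinDisj K₀ K Φ) (f : F) :
    ∃ (m : ℕ) (c : Fin m → K) (g : Fin m → F₀), f = ∑ j, c j • Φ (g j) ∧
      ∀ y z : F₀, IsIntegral (Algebra.adjoin K {Φ y}) (Φ z * f) →
        ∀ j, IsIntegral (Algebra.adjoin K₀ {y}) (z * g j) := by
  classical
  let _ : Algebra F₀ F := Φ.toAlgebra
  let _ : Algebra K₀ F := ((algebraMap K F).comp (algebraMap K₀ K)).toAlgebra
  have : IsScalarTower K₀ K F := IsScalarTower.of_algebraMap_eq fun _ => rfl
  have : IsScalarTower K₀ F₀ F := IsScalarTower.of_algebraMap_eq fun a => (hΦ a).symm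
  obtain ⟨m, c, g, hf⟩ := hc f
  let K₁ : IntermediateField K₀ K := IntermediateField.adjoin K₀ (Set.range c)
  have : FiniteDimensional K₀ K₁ := IntermediateField.finiteDimensional_adjoin
    fun x _ => (Algebra.IsAlgebraic.isAlgebraic x).isIntegral
  let b := Module.finBasis K₀ K₁
  have hcK : ∀ j, c j ∈ K₁ := fun j => IntermediateField.subset_adjoin K₀ _ ⟨j, rfl⟩
  let g' : Fin (finrank K₀ K₁) → F₀ := fun t => ∑ j, b.repr ⟨c j, hcK j⟩ t • g j
  have h1 : ∀ j, c j = ∑ t, algebraMap K₀ K (b.repr ⟨c j, hcK j⟩ t) * ((b t : K₁) : K) := by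
    intro j
    have h2 := congrArg (fun w : K₁ => (w : K)) (b.sum_repr ⟨c j, hcK j⟩)
    simp only [AddSubmonoidClass.coe_finsetSum, IntermediateField.coe_smul] at h2
    refine h2.symm.trans ?_
    exact Finset.sum_congr rfl fun t _ => Algebra.smul_def _ _
  have hf' : f = ∑ t, ((b t : K₁) : K) • Φ (g' t) := by
    rw [hf]
    calc ∑ j, c j • Φ (g j)
        = ∑ j, ∑ t, (algebraMap K₀ K (b.repr ⟨c j, hcK j⟩ t) * ((b t : K₁) : K)) • Φ (g j) := by
          refine Finset.sum_congr rfl fun j _ => ?_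
          conv_lhs => rw [h1 j]
          rw [Finset.sum_smul]
      _ = ∑ t, ∑ j, (algebraMap K₀ K (b.repr ⟨c j, hcK j⟩ t) * ((b t : K₁) : K)) • Φ (g j) :=
          Finset.sum_comm
      _ = ∑ t, ((b t : K₁) : K) • Φ (g' t) := by
          refine Finset.sum_congr rfl fun t _ => ?_
          rw [map_sum, Finset.smul_sum]
          refine Finset.sum_congr rfl fun j _ => ?_
          rw [Algebra.smul_def (b.repr ⟨c j, hcK j⟩ t) (g j), map_mul, hΦ, Algebra.smul_def,
            Algebra.smul_def, map_mul]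
          ring
  refine ⟨_, fun t => ((b t : K₁) : K), g', hf', fun y z h j => ?_⟩
  rw [hf'] at h
  exact DescentTrace.core hd K₁ b g' y z h j

theorem LL_baseChange [Algebra.IsSeparable K₀ K] (Φ : F₀ →+* F)
    (hΦ : ∀ a : K₀, Φ (algebraMap K₀ F₀ a) = algebraMap K F (algebraMap K₀ K a))
    (hc : IsCompositum K Φ) (hd : IsLinDisj K₀ K Φ) (x : F₀) (i : ℕ) :
    LL K (Φ x) i = span K (Φ '' (LL K₀ x i : Set F₀)) := by
  apply le_antisymm
  · intro f hf
    rw [mem_LL] at hf
    obtain ⟨m, c, g, hfg, hg⟩ := exists_decomp_isIntegral Φ hΦ hc hd f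
    have h1 := hg x 1 (by rw [map_one, one_mul]; exact hf.1)
    have h2 := hg x⁻¹ (x⁻¹ ^ i) (by rw [map_pow, map_inv₀]; exact hf.2)
    rw [hfg]
    refine sum_mem fun j _ => smul_mem _ _ (subset_span ⟨g j, ?_, rfl⟩)
    refine mem_LL.2 ⟨?_, h2 j⟩
    have h3 := h1 j
    rwa [one_mul] at h3
  · rw [span_le]
    rintro _ ⟨f, hf, rfl⟩
    exact DescentTrace.map_mem_LL Φ hΦ hf

end Gb

end Fermat.Agent.S19.KM
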