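import Mathlib

/-!
# S19 / KM route, block [G]: the algebraic form of the spaces `L(i (x)_∞)` (definitions)

`LL K x i` : the elements `f` of `F` which are integral over `K[x]` and such that `x⁻¹ ^ i * f` is
integral over `K[x⁻¹]`.  For a curve over an algebraically closed field this is `L(i (x)_∞)`;
the definition makes sense over any field of constants.  Mathlib only.  Owner: helper19.
-/

set_option autoImplicit false

noncomputable section

namespace Fermat.Agent.S19.KM

/-- `{f | f integral over K[x], x⁻¹ ^ i * f integral over K[x⁻¹]}` -/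
def LL (K : Type*) {F : Type*} [Field K] [Field F] [Algebra K F] (x : F) (i : ℕ) :
    Submodule K F where
  carrier := {f | IsIntegral (Algebra.adjoin K {x}) f ∧
    IsIntegral (Algebra.adjoin K {x⁻¹}) (x⁻¹ ^ i * f)}
  zero_mem' := ⟨isIntegral_zero, by rw [mul_zero]; exact isIntegral_zero⟩
  add_mem' := fun {a b} ha hb => ⟨ha.1.add hb.1, by rw [mul_add]; exact ha.2.add hb.2⟩
  smul_mem' := fun c a ha => by
    refine ⟨?_, ?_⟩
    · rw [Algebra.smul_def]
      exact (isIntegral_algebraMap (R := Algebra.adjoin K {x}) (A := F)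
        (x := algebraMap K _ c)).mul ha.1
    · rw [Algebra.smul_def, mul_left_comm]
      exact (isIntegral_algebraMap (R := Algebra.adjoin K {x⁻¹}) (A := F)
        (x := algebraMap K _ c)).mul ha.2

theorem mem_LL {K F : Type*} [Field K] [Field F] [Algebra K F] {x : F} {i : ℕ} {f : F} :
    f ∈ LL K x i ↔ IsIntegral (Algebra.adjoin K {x}) f ∧
      IsIntegral (Algebra.adjoin K {x⁻¹}) (x⁻¹ ^ i * f) := Iff.rfl

/-- `F = K Φ(F₀)` -/
def IsCompositum (K : Type*) {F₀ F : Type*} [Field K] [Field F₀] [Field F] [Algebra K F]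
    (Φ : F₀ →+* F) : Prop :=
  ∀ f : F, ∃ (m : ℕ) (c : Fin m → K) (g : Fin m → F₀), f = ∑ j, c j • Φ (g j)

/-- `K` and `Φ(F₀)` are linearly disjoint over `K₀` -/
def IsLinDisj (K₀ K : Type*) {F₀ F : Type*} [Field K₀] [Field K] [Field F₀] [Field F]
    [Algebra K₀ K] [Algebra K F] (Φ : F₀ →+* F) : Prop :=
  ∀ (m : ℕ) (c : Fin m → K) (g : Fin m → F₀), LinearIndependent K₀ c →
    ∑ j, c j • Φ (g j) = 0 → ∀ j, g j = 0

end Fermat.Agent.S19.KM
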