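import Fermat.Agent.S19.KM.Curve.Defs
import Fermat.Agent.S19.KM.Geom.Defs

/-!
# S19 / KM route, block [G], section Ga: the dictionary `L(i (x)_∞) = LL K x i`

Characteristic free: only the separability of `F / K(x)` is used.
-/

set_option autoImplicit false
set_option linter.style.haveILetI false

noncomputable section

namespace Fermat.Agent.S19.KM

open AlgebraicCurve Fermat.Agent.S24.FF Fermat.Agent.Lib.RR Module Submodule IntermediateField
open IsDedekindDomain
open scoped IntermediateField.algebraAdjoinAdjoin

section Ga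
variable {K F : Type*} [Field K] [Field F] [Algebra K F]

/-- A function which is regular wherever `x` is regular is integral over `K[x]`
(characteristic free copy of `S27.H.LSpace.isIntegral_of_forall_ord`). -/
theorem dict_isIntegral_of_forall_ord [IsFF1 K F] {x : F} (hx : Transcendental K x)
    [Algebra.IsSeparable K⟮x⟯ F] {u : F}
    (hu : ∀ w : Place K F, 0 ≤ w.ord x → 0 ≤ w.ord u) : IsIntegral (Algebra.adjoin K {x}) u := by
  haveI : FiniteDimensional K⟮x⟯ F := IsFF1.finite x hx
  haveI := isPrincipalIdealRing_adjoin x hx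
  haveI : IsDedekindDomain (integralClosure (Algebra.adjoin K {x}) F) :=
    integralClosure.isDedekindDomain (Algebra.adjoin K {x}) K⟮x⟯ F
  haveI : IsFractionRing (integralClosure (Algebra.adjoin K {x}) F) F :=
    integralClosure.isFractionRing_of_finite_extension K⟮x⟯ F
  have hxB : x ∈ integralClosure (Algebra.adjoin K {x}) F :=
    (isIntegral_algebraMap (R := Algebra.adjoin K {x}) (A := F)
      (x := ⟨x, Algebra.self_mem_adjoin_singleton K x⟩))
  have h : ∀ w : HeightOneSpectrum (integralClosure (Algebra.adjoin K {x}) F),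
      w.valuation F u ≤ 1 := by
    intro w
    have h1 := algebraMap_mem_ofHeightOneSpectrum (K := K) (F := F) w ⟨x, hxB⟩
    have h2 : 0 ≤ (Place.ofHeightOneSpectrum (K := K) (F := F) w).ord x :=
      ord_nonneg_of_mem _ h1
    have h3 := mem_of_ord_nonneg _ (hu _ h2)
    rwa [Place.ofHeightOneSpectrum_toValuationSubring, Valuation.mem_valuationSubring_iff] at h3
  obtain ⟨b, hb⟩ := HeightOneSpectrum.mem_integers_of_valuation_le_one F u h
  rw [← hb]
  exact b.2

/-- an element integral over `K[x]` is regular wherever `x` is regular -/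
theorem dict_ord_nonneg_of_isIntegral {x u : F} (hu : IsIntegral (Algebra.adjoin K {x}) u)
    (w : Place K F) (hw : 0 ≤ w.ord x) : 0 ≤ w.ord u :=
  ord_nonneg_of_mem w (mem_of_isIntegral w _ (adjoin_le_of_ord_nonneg w hw) hu)

theorem dict_transcendental_inv {x : F} (hx : Transcendental K x) : Transcendental K x⁻¹ := by
  intro h
  apply hx
  have := h.inv
  rwa [inv_inv] at this

theorem dict_isSeparable_inv (x : F) [h : Algebra.IsSeparable K⟮x⟯ F] :
    Algebra.IsSeparable K⟮x⁻¹⟯ F := by
  have e : K⟮x⁻¹⟯ = K⟮x⟯ := adjoin_simple_inv x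
  generalize K⟮x⁻¹⟯ = E at e
  subst e
  exact h

theorem dict_ord_inv_pow_mul (w : Place K F) {x f : F} (hx : x ≠ 0) (hf : f ≠ 0) (i : ℕ) :
    w.ord (x⁻¹ ^ i * f) = -(i * w.ord x) + w.ord f := by
  rw [w.ord_mul (pow_ne_zero _ (inv_ne_zero hx)) hf, ← zpow_natCast, w.ord_zpow, w.ord_inv]
  ring

theorem L_eq_LL [IsCurve K F] {x : F} (hx : Transcendental K x) [Algebra.IsSeparable K⟮x⟯ F]
    (i : ℕ) : L (i • poleDiv (K := K) x) = LL K x i := by
  have hx0 : x ≠ 0 := by
    rintro rfl
    exact hx isAlgebraic_zero
  haveI := dict_isSeparable_inv (K := K) x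
  ext f
  rw [mem_riemannRochSpace_iff, mem_LL]
  rcases eq_or_ne f 0 with rfl | hf
  · simp only [true_or, implies_true, mul_zero, true_iff]
    exact ⟨isIntegral_zero, isIntegral_zero⟩
  have key : ∀ v : Place K F, (i • poleDiv (K := K) x) v = i * max 0 (-v.ord x) := by
    intro v
    rw [Finsupp.smul_apply, poleDiv_apply, nsmul_eq_mul]
  constructor
  · intro h
    have h' : ∀ v : Place K F, -(i * max 0 (-v.ord x)) ≤ v.ord f := fun v => by
      rw [← key]; exact (h v).resolve_left hf
    constructor
    · refine dict_isIntegral_of_forall_ord hx fun w hw => ?_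
      have := h' w
      rwa [max_eq_left (by omega), mul_zero, neg_zero] at this
    · refine dict_isIntegral_of_forall_ord (dict_transcendental_inv hx) fun w hw => ?_
      rw [w.ord_inv] at hw
      have := h' w
      rw [max_eq_right (by omega)] at this
      rw [dict_ord_inv_pow_mul w hx0 hf]
      linarith
  · rintro ⟨h1, h2⟩ v
    right
    rw [key]
    rcases le_or_gt 0 (v.ord x) with hv | hv
    · rw [max_eq_left (by omega), mul_zero, neg_zero]
      exact dict_ord_nonneg_of_isIntegral h1 v hv
    · have := dict_ord_nonneg_of_isIntegral h2 v (by rw [v.ord_inv]; omega)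
      rw [dict_ord_inv_pow_mul v hx0 hf] at this
      rw [max_eq_right (by omega)]
      linarith

end Ga

end Fermat.Agent.S19.KM
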