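import Fermat.Agent.S19.KM.GR.Defs
import Fermat.Agent.S19.KM.Red.Frame
import Fermat.Agent.S19.KM.Geom.Dict
import Fermat.Agent.S19.KM.Geom.DescentBasic
import Fermat.Agent.S19.KM.Geom.DescentTrace

/-!
# S19 / KM route, block [G], section Gd: assembly (task S19-KM-Gd, proofs: helper185)

* `dg_poleDiv_eq_of_frames` : the existence of frames of `L(i (x)_∞)` reducing to bases of
  `L(i (xk)_∞)` for all large `i` forces `deg (x)_∞ = deg (xk)_∞` (Riemann on both sides).
* `exists_frame_of_rat` : frames over the small fields give fixed frames over the big fields.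
-/

set_option autoImplicit false

noncomputable section

namespace Fermat.Agent.S19.KM

open AlgebraicCurve Fermat.Agent.S24.FF Fermat.Agent.Lib.RR Module Submodule IntermediateField

section Gd
variable {K F k Fk : Type*} [Field K] [Field F] [Algebra K F] [Field k] [Field Fk] [Algebra k Fk]

/-- `deg (x)_∞ = [F : K(x)] > 0` -/
theorem dg_poleDiv_pos_of_transcendental [IsCurve K F] {x : F} (hx : Transcendental K x) :
    0 < dg (poleDiv (K := K) x) := by
  have hfd : FiniteDimensional (IntermediateField.adjoin K {x}) F := IsFF1.finite x hx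
  have h : dg (poleDiv (K := K) x) = (finrank (IntermediateField.adjoin K {x}) F : ℤ) :=
    degree_poleDiv x hx
  rw [h]
  exact_mod_cast (Module.finrank_pos : 0 < finrank (IntermediateField.adjoin K {x}) F)

theorem dg_nsmul_eq_mul (D : Divisor K F) (i : ℕ) : dg (i • D) = i * dg D := by
  change Divisor.degree (i • D) = _
  rw [map_nsmul, nsmul_eq_mul]

/-- Riemann's theorem for the multiples of a divisor of positive degree -/
theorem ell_nsmul_eq_of_le [IsCurve K F] {D : Divisor K F} (hD : 0 < dg D) {j : ℕ}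
    (hj : (bd K F).toNat ≤ j) : (ell (j • D) : ℤ) = j * dg D + 1 - gen K F := by
  have h1 : bd K F ≤ j := (Int.self_le_toNat _).trans (by exact_mod_cast hj)
  have h2 : (0 : ℤ) ≤ j := Int.natCast_nonneg j
  have h3 : (j : ℤ) ≤ j * dg D := by nlinarith
  rw [← dg_nsmul_eq_mul]
  exact ell_eq (by rw [dg_nsmul_eq_mul]; exact h1.trans h3)

/-- `deg (x)_∞ = deg (xk)_∞` follows from the existence of the frames (Riemann on both sides) -/
theorem dg_poleDiv_eq_of_frames [IsCurve K F] [IsCurve k Fk] (R : RedData K F k Fk) {x : F}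
    {xk : Fk} (hx : Transcendental K x) (hxk : Transcendental k xk) (i₀ : ℕ)
    (h : ∀ i, i₀ ≤ i → ∃ (m : ℕ) (v : Fin m → F) (vb : Fin m → Fk),
      R.IsFrame v vb ∧ span K (Set.range v) = L (i • poleDiv (K := K) x) ∧
        span k (Set.range vb) = L (i • poleDiv (K := k) xk)) :
    dg (poleDiv (K := K) x) = dg (poleDiv (K := k) xk) := by
  have hn0 : 0 < dg (poleDiv (K := K) x) := dg_poleDiv_pos_of_transcendental hx
  have hnk0 : 0 < dg (poleDiv (K := k) xk) := dg_poleDiv_pos_of_transcendental hxk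
  have hell : ∀ i, i₀ ≤ i → ell (i • poleDiv (K := K) x) = ell (i • poleDiv (K := k) xk) := by
    intro i hi
    obtain ⟨m, v, vb, hfr, hv, hvb⟩ := h i hi
    have h1 : finrank K (span K (Set.range v)) = m := by
      rw [finrank_span_eq_card hfr.linearIndependent, Fintype.card_fin]
    have h2 : finrank k (span k (Set.range vb)) = m := by
      rw [finrank_span_eq_card hfr.indep, Fintype.card_fin]
    rw [hv] at h1
    rw [hvb] at h2
    exact h1.trans h2.symm
  set i : ℕ := max i₀ (max (bd K F).toNat (bd k Fk).toNat) with hi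
  have h0 : i₀ ≤ i := le_max_left _ _
  have h1 : (bd K F).toNat ≤ i := (le_max_left _ _).trans (le_max_right i₀ _)
  have h2 : (bd k Fk).toNat ≤ i := (le_max_right _ _).trans (le_max_right i₀ _)
  have a1 := ell_nsmul_eq_of_le hn0 h1
  have a2 := ell_nsmul_eq_of_le hn0 (h1.trans (Nat.le_succ i))
  have b1 := ell_nsmul_eq_of_le hnk0 h2
  have b2 := ell_nsmul_eq_of_le hnk0 (h2.trans (Nat.le_succ i))
  rw [hell i h0] at a1
  rw [hell (i + 1) (h0.trans (Nat.le_succ i))] at a2
  push_cast at a2 b2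
  linarith

/-- the `K`-span of the image of a `K₀`-span is the `K`-span of the image -/
theorem span_image_span_of_semilinear {K₀ F₀ : Type*} [Field K₀] [Field F₀] [Algebra K₀ K]
    [Algebra K₀ F₀] (Φ : F₀ →+* F)
    (hΦ : ∀ a : K₀, Φ (algebraMap K₀ F₀ a) = algebraMap K F (algebraMap K₀ K a)) (S : Set F₀) :
    span K (Φ '' (span K₀ S : Set F₀)) = span K (Φ '' S) := by
  refine le_antisymm (span_le.2 ?_) (span_mono (Set.image_mono subset_span))
  rintro _ ⟨f, hf, rfl⟩
  induction hf using span_induction with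
  | mem y hy => exact subset_span ⟨y, hy, rfl⟩
  | zero => rw [map_zero]; exact zero_mem _
  | add y z _ _ hy hz => rw [map_add]; exact add_mem hy hz
  | smul a y _ hy =>
    rw [Algebra.smul_def, map_mul, hΦ, ← Algebra.smul_def]
    exact smul_mem _ _ hy

/-- frames over the small fields give fixed frames over the big fields -/
theorem exists_frame_of_rat [IsCurve K F] [IsCurve k Fk] (R : RedData K F k Fk)
    {K₀ F₀ k₀ Fk₀ : Type*} [Field K₀] [Field F₀] [Field k₀] [Field Fk₀]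
    [Algebra K₀ K] [Algebra K₀ F₀] [Algebra k₀ k] [Algebra k₀ Fk₀]
    [Algebra.IsSeparable K₀ K] [Algebra.IsSeparable k₀ k]
    (Φ : F₀ →+* F) (Ψ : Fk₀ →+* Fk)
    (hΦ : ∀ a : K₀, Φ (algebraMap K₀ F₀ a) = algebraMap K F (algebraMap K₀ K a))
    (hΨ : ∀ a : k₀, Ψ (algebraMap k₀ Fk₀ a) = algebraMap k Fk (algebraMap k₀ k a))
    (hcK : IsCompositum K Φ) (hdK : IsLinDisj K₀ K Φ)
    (hck : IsCompositum k Ψ) (hdk : IsLinDisj k₀ k Ψ)
    (𝒟 : ValuationSubring F₀) (red₀ : 𝒟 →+* Fk₀)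
    (hred : ∀ f : 𝒟, R.Red (Φ (f : F₀)) (Ψ (red₀ f)))
    (x₀ : 𝒟) (hx : Transcendental K (Φ (x₀ : F₀))) (hxk : Transcendental k (Ψ (red₀ x₀)))
    [Algebra.IsSeparable K⟮Φ (x₀ : F₀)⟯ F] [Algebra.IsSeparable k⟮Ψ (red₀ x₀)⟯ Fk]
    (Γ : Subgroup (SemilinearAut K F)) (hΓ : ∀ g ∈ Γ, ∀ f : F₀, g • Φ f = Φ f) (i₀ : ℕ)
    (h : ∀ i, i₀ ≤ i → ∃ (m : ℕ) (v : Fin m → 𝒟),
      span K₀ (Set.range fun j => ((v j : 𝒟) : F₀)) = LL K₀ (x₀ : F₀) i ∧
      LinearIndependent k₀ (fun j => red₀ (v j)) ∧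
      span k₀ (Set.range fun j => red₀ (v j)) = LL k₀ (red₀ x₀) i) :
    ∀ i, i₀ ≤ i → ∃ (m : ℕ) (v : Fin m → F) (vb : Fin m → Fk),
      R.IsFrame v vb ∧ span K (Set.range v) = L (i • poleDiv (K := K) (Φ (x₀ : F₀))) ∧
        span k (Set.range vb) = L (i • poleDiv (K := k) (Ψ (red₀ x₀))) ∧
        ∀ g ∈ Γ, ∀ j, g • v j = v j := by
  intro i hi
  obtain ⟨m, v, hv, hind, hvb⟩ := h i hi
  refine ⟨m, fun j => Φ ((v j : 𝒟) : F₀), fun j => Ψ (red₀ (v j)),
    ⟨fun j => hred (v j), hdk.linearIndependent hΨ hind⟩, ?_, ?_, fun g hg j => hΓ g hg _⟩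
  · rw [L_eq_LL hx i, LL_baseChange Φ hΦ hcK hdK (x₀ : F₀) i, ← hv,
      span_image_span_of_semilinear Φ hΦ, ← Set.range_comp]
    rfl
  · rw [L_eq_LL hxk i, LL_baseChange Ψ hΨ hck hdk (red₀ x₀) i, ← hvb,
      span_image_span_of_semilinear Ψ hΨ, ← Set.range_comp]
    rfl

end Gd

end Fermat.Agent.S19.KM
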