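import Fermat.Agent.S19.KM.Geom.Lift.Decomp
import Fermat.Agent.S19.KM.Geom.Lift.Generic
import Fermat.Agent.S19.KM.Geom.Lift.Elt
import Fermat.Agent.S19.KM.Geom.Lift.FG

/-!
# S19 / KM route, block [G], section Gc: frames of `LL K x i` over a discrete valuation ring

Assembly of `exists_frames_LL` from the files `Geom/Lift/*`: `Λ_i = {f ∈ B₁ | x⁻ⁱ f ∈ B₂}` is a
finitely generated torsion free module over the discrete valuation ring `O`, hence free; a basis of
`Λ_i` is a `K`-basis of `LL K x i` and reduces to a `k₀`-basis of `LL k₀ xb i`.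
-/

set_option autoImplicit false

noncomputable section

namespace Fermat.Agent.S19.KM

open Fermat.Agent.GoodRed Module Submodule

namespace Lift

variable {O E F : Type*} [CommRing O] [IsDomain O] [IsDiscreteValuationRing O]
  [Field E] [Algebra O E] [Field F] [Algebra E F] [FiniteDimensional E F]
  {k₀ Fk₀ : Type*} [Field k₀] [Field Fk₀] [Algebra k₀ Fk₀]

theorem exists_frame (K : Type*) [Field K] [CharZero K] [Algebra O K]
    [IsFractionRing O K] [Algebra K E] [IsScalarTower O K E] [Algebra K F] [IsScalarTower K E F]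
    [Algebra O F] [IsScalarTower O E F]
    (ϖ : O) (hϖ : Irreducible ϖ) (x : E) (hx : Transcendental K x)
    (hgen : IntermediateField.adjoin K {x} = ⊤) (𝒟 : ValuationSubring F)
    (hG : GaussData O ϖ 𝒟 x)
    (N0 : IsDedekindDomain (chart O F x ⧸ Ideal.span {unifChart O F ϖ x}))
    (N1 : IsDedekindDomain (chart O F x⁻¹ ⧸ Ideal.span {unifChart O F ϖ x⁻¹}))
    (res : O →+* k₀) (red : 𝒟 →+* Fk₀) (hres : Function.Surjective res)
    (hred : Function.Surjective red)
    (hcomp : ∀ a : O, red ⟨algebraMap E F (algebraMap O E a), hG.algebraMap_mem a⟩ =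
      algebraMap k₀ Fk₀ (res a))
    (hxD : algebraMap E F x ∈ 𝒟) {i : ℕ}
    (hfin : Module.Finite K (LL K (algebraMap E F x) i))
    (hdec : ∀ (w : F) (s : ℕ), algebraMap E F x⁻¹ ^ s * w ∈ chart O F x⁻¹ →
      ∃ c₁ ∈ chart O F x, ∃ c₂ ∈ chart O F x⁻¹, w = c₁ + algebraMap E F x ^ i * c₂) :
    ∃ (m : ℕ) (v : Fin m → 𝒟),
      span K (Set.range fun j => ((v j : 𝒟) : F)) = LL K (algebraMap E F x) i ∧
      LinearIndependent k₀ (fun j => red (v j)) ∧
      span k₀ (Set.range fun j => red (v j)) = LL k₀ (red ⟨algebraMap E F x, hxD⟩) i := by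
  classical
  have hFG : (Lam O F x i).FG := fg_Lam K ϖ hϖ x hx hgen i hfin
  have : Module.Finite O (Lam O F x i) := Module.Finite.iff_fg.2 hFG
  -- scalars
  have hsmulO : ∀ (a : O) (y : F), a • y = algebraMap E F (algebraMap O E a) * y := fun a y => by
    rw [Algebra.smul_def, IsScalarTower.algebraMap_apply O E F]
  have hsmulK : ∀ (a : O) (y : F), a • y = algebraMap O K a • y := fun a y => by
    rw [hsmulO, Algebra.smul_def, IsScalarTower.algebraMap_apply K E F,
      ← IsScalarTower.algebraMap_apply O K E]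
  have hϖK : algebraMap O K ϖ ≠ 0 := by
    rw [Ne, map_eq_zero_iff _ (IsFractionRing.injective O K)]
    exact hϖ.ne_zero
  have : Module.IsTorsionFree O F := Module.IsTorsionFree.of_smul_eq_zero fun a y h => by
    rw [hsmulK] at h
    rcases smul_eq_zero.1 h with h | h
    · left
      exact (map_eq_zero_iff _ (IsFractionRing.injective O K)).1 h
    · exact Or.inr h
  obtain ⟨m, B⟩ := Module.basisOfFiniteTypeTorsionFree' (R := O) (M := Lam O F x i)
  have hBD : ∀ j, ((B j : Lam O F x i) : F) ∈ 𝒟 := fun j => mem_of_mem_chart ϖ x 𝒟 hG (B j).2.1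
  let v : Fin m → 𝒟 := fun j => ⟨B j, hBD j⟩
  let cO : O → 𝒟 := fun a => ⟨algebraMap E F (algebraMap O E a), hG.algebraMap_mem a⟩
  -- combinations
  have hcoe : ∀ c : Fin m → O, ((∑ j, cO (c j) * v j : 𝒟) : F)
      = ((∑ j, c j • B j : Lam O F x i) : F) := fun c => by
    rw [Submodule.coe_sum]
    have h1 : ((∑ j, cO (c j) * v j : 𝒟) : F) = ∑ j, ((cO (c j) * v j : 𝒟) : F) :=
      map_sum 𝒟.subtype _ _
    rw [h1]
    refine Finset.sum_congr rfl fun j _ => ?_
    rw [Submodule.coe_smul, hsmulO]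
    rfl
  have hredc : ∀ c : Fin m → O, red (∑ j, cO (c j) * v j) = ∑ j, res (c j) • red (v j) :=
    fun c => by
      rw [map_sum]
      refine Finset.sum_congr rfl fun j _ => ?_
      rw [map_mul, Algebra.smul_def]
      exact congrArg (· * red (v j)) (hcomp (c j))
  have hexp : ∀ f : Lam O F x i, f = ∑ j, B.repr f j • B j := fun f => (B.sum_repr f).symm
  refine ⟨m, v, ?_, ?_, ?_⟩
  · -- the generic fibre
    apply le_antisymm
    · rw [span_le]
      rintro _ ⟨j, rfl⟩
      exact mem_LL_of_mem K (B j).2.1 (B j).2.2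
    · intro f hf
      obtain ⟨k, h₁, h₂⟩ := exists_pow_mul_mem_of_mem_LL (K := K) hϖ hf
      have hmem : ∀ g : Lam O F x i, (g : F) ∈ span K (Set.range fun j => ((v j : 𝒟) : F)) := by
        intro g
        rw [hexp g, Submodule.coe_sum]
        refine Submodule.sum_mem _ fun j _ => ?_
        rw [Submodule.coe_smul, hsmulK]
        exact Submodule.smul_mem _ _ (subset_span ⟨j, rfl⟩)
      have h3 := hmem ⟨_, h₁, h₂⟩
      have e : f = (algebraMap O K ϖ ^ k)⁻¹ • (algebraMap E F (algebraMap O E ϖ) ^ k * f) := by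
        have e1 : algebraMap E F (algebraMap O E ϖ) ^ k * f = (algebraMap O K ϖ ^ k) • f := by
          rw [Algebra.smul_def, map_pow, IsScalarTower.algebraMap_apply K E F,
            ← IsScalarTower.algebraMap_apply O K E]
        rw [e1, smul_smul, inv_mul_cancel₀ (pow_ne_zero _ hϖK), one_smul]
      rw [e]
      exact Submodule.smul_mem _ _ h3
  · -- independence of the reductions
    rw [Fintype.linearIndependent_iff]
    intro g hg j
    choose c hc using fun j => hres (g j)
    have h0 : red (∑ j, cO (c j) * v j) = 0 := by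
      rw [hredc, ← hg]
      exact Finset.sum_congr rfl fun j _ => by rw [hc]
    obtain ⟨w, hw, hyw⟩ := (red_eq_zero_iff hG red hred _).1 h0
    rw [hcoe] at hyw
    have hy := (∑ j, c j • B j : Lam O F x i).2
    rw [hyw] at hy
    have hwΛ := saturated K ϖ hϖ x hx hgen 𝒟 hG hw hy.1 hy.2
    have e : (∑ j, c j • B j : Lam O F x i) = ϖ • (⟨w, hwΛ⟩ : Lam O F x i) := by
      apply Subtype.ext
      rw [hyw, Submodule.coe_smul, hsmulO]
    have e2 := congrArg (fun z => B.repr z j) e
    simp only [B.repr_sum_self, map_smul, Finsupp.smul_apply, smul_eq_mul] at e2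
    rw [← hc j, res_eq_zero_iff hϖ res hres, e2]
    exact dvd_mul_right _ _
  · -- the special fibre
    apply le_antisymm
    · rw [span_le]
      rintro _ ⟨j, rfl⟩
      exact red_mem_LL K ϖ hϖ x hx hgen 𝒟 hG res red hcomp hxD (v j) (B j).2.1 (B j).2.2
    · intro fb hfb
      obtain ⟨f, h₁, h₂, rfl⟩ := exists_lift K ϖ hϖ x hx hgen 𝒟 hG N0 N1 res red hres hred hcomp
        hxD hdec hfb
      have e : f = ∑ j, cO (B.repr ⟨f, h₁, h₂⟩ j) * v j := by
        apply Subtype.ext
        rw [hcoe, ← hexp]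
      rw [e, hredc]
      exact Submodule.sum_mem _ fun j _ => Submodule.smul_mem _ _ (subset_span ⟨j, rfl⟩)

end Lift

theorem exists_frames_LL (K : Type*) {O E F : Type*} [CommRing O] [IsDomain O]
    [IsDiscreteValuationRing O] [Field K] [CharZero K] [Algebra O K] [IsFractionRing O K]
    [Field E] [Algebra K E] [Algebra O E] [IsScalarTower O K E]
    [Field F] [Algebra E F] [FiniteDimensional E F] [Algebra K F] [IsScalarTower K E F]
    (ϖ : O) (hϖ : Irreducible ϖ) (x : E) (hx : Transcendental K x)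
    (hgen : IntermediateField.adjoin K {x} = ⊤) (𝒟 : ValuationSubring F)
    (hG : GaussData O ϖ 𝒟 x)
    (N0 : IsDedekindDomain (chart O F x ⧸ Ideal.span {unifChart O F ϖ x}))
    (N1 : IsDedekindDomain (chart O F x⁻¹ ⧸ Ideal.span {unifChart O F ϖ x⁻¹}))
    (hfin : ∀ i, Module.Finite K (LL K (algebraMap E F x) i))
    {k₀ Fk₀ : Type*} [Field k₀] [Field Fk₀] [Algebra k₀ Fk₀]
    (res : O →+* k₀) (red : 𝒟 →+* Fk₀) (hres : Function.Surjective res)
    (hred : Function.Surjective red)
    (hcomp : ∀ a : O, red ⟨algebraMap E F (algebraMap O E a), hG.algebraMap_mem a⟩ =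
      algebraMap k₀ Fk₀ (res a))
    (hxD : algebraMap E F x ∈ 𝒟) :
    ∃ i₀ : ℕ, ∀ i, i₀ ≤ i → ∃ (m : ℕ) (v : Fin m → 𝒟),
      span K (Set.range fun j => ((v j : 𝒟) : F)) = LL K (algebraMap E F x) i ∧
      LinearIndependent k₀ (fun j => red (v j)) ∧
      span k₀ (Set.range fun j => red (v j)) = LL k₀ (red ⟨algebraMap E F x, hxD⟩) i := by
  let _ : Algebra O F := ((algebraMap E F).comp (algebraMap O E)).toAlgebra
  have : IsScalarTower O E F := IsScalarTower.of_algebraMap_eq fun _ => rfl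
  obtain ⟨i₀, hi₀⟩ := Lift.exists_decomp (O := O) (F := F) K x hx hgen
  exact ⟨i₀, fun i hi => Lift.exists_frame K ϖ hϖ x hx hgen 𝒟 hG N0 N1 res red hres hred hcomp
    hxD (hfin i) (hi₀ i hi)⟩

end Fermat.Agent.S19.KM
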